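import Fermat.Agent.ErdosFuchs.Main

/-!
# Sets and the circle

The theorem for sets of natural numbers and for the lattice points in a disc.
-/

set_option autoImplicit false

noncomputable section

open Finset Filter Asymptotics
open scoped Real

namespace FA.ErdosFuchs

/-- The number of square roots of `n` in `ℤ`. -/
def rootCount (n : ℕ) : ℕ := #((Icc (-(n : ℤ)) n).filter fun x => x ^ 2 = (n : ℤ))

/-- The lattice points of the disc of radius `√N`. -/
def discPoints (N : ℕ) : Finset (ℤ × ℤ) :=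
  (Icc (-(N : ℤ)) N ×ˢ Icc (-(N : ℤ)) N).filter fun v => v.1 ^ 2 + v.2 ^ 2 ≤ (N : ℤ)

theorem mem_discPoints {N : ℕ} {v : ℤ × ℤ} :
    v ∈ discPoints N ↔ v.1 ^ 2 + v.2 ^ 2 ≤ (N : ℤ) := by
  simp only [discPoints, mem_filter, mem_product, mem_Icc, and_iff_right_iff_imp]
  intro h
  have h1 := Int.natAbs_le_self_sq v.1
  have h2 := Int.natAbs_le_self_sq v.2
  have h3 := sq_nonneg v.1
  have h4 := sq_nonneg v.2
  omega

theorem rootCount_eq {i N : ℕ} (h : i ≤ N) :
    rootCount i = #((Icc (-(N : ℤ)) N).filter fun x => x ^ 2 = (i : ℤ)) := by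
  rw [rootCount]
  congr 1
  ext x
  simp only [mem_filter, mem_Icc]
  have := Int.natAbs_le_self_sq x
  constructor <;> rintro ⟨h1, h2⟩ <;> refine ⟨?_, h2⟩ <;> omega

theorem repTotal_rootCount (N : ℕ) : repTotal rootCount N = #(discPoints N) := by
  rw [repTotal, Finset.card_eq_sum_card_fiberwise (f := fun v => (v.1 ^ 2 + v.2 ^ 2).toNat)
    (t := range (N + 1)) fun v hv => by
      have := mem_discPoints.1 hv
      simp only [coe_range, Set.mem_Iio]
      omega]
  refine Finset.sum_congr rfl fun n hn => ?_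
  have hnN : n ≤ N := by simpa [Nat.lt_succ_iff] using hn
  rw [repCount, Finset.card_eq_sum_card_fiberwise
    (f := fun v => ((v.1 ^ 2).toNat, (v.2 ^ 2).toNat)) (t := antidiagonal n) fun v hv => by
      simp only [coe_filter, Set.mem_ofPred_eq] at hv
      have := sq_nonneg v.1
      have := sq_nonneg v.2
      simp only [mem_coe, mem_antidiagonal]
      omega]
  refine Finset.sum_congr rfl fun p hp => ?_
  rw [mem_antidiagonal] at hp
  rw [rootCount_eq (N := N) (by omega), rootCount_eq (N := N) (by omega), ← card_product]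
  congr 1
  ext v
  simp only [mem_filter, mem_product, mem_discPoints, mem_Icc, Prod.ext_iff]
  have := sq_nonneg v.1
  have := sq_nonneg v.2
  have := Int.natAbs_le_self_sq v.1
  have := Int.natAbs_le_self_sq v.2
  omega

theorem repTotal_indicator (A : Set ℕ) [DecidablePred (· ∈ A)] (N : ℕ) :
    repTotal (fun n => if n ∈ A then 1 else 0) N =
      ∑ n ∈ range (N + 1), #((antidiagonal n).filter fun p => p.1 ∈ A ∧ p.2 ∈ A) := by
  refine Finset.sum_congr rfl fun n _ => ?_
  rw [repCount, Finset.card_filter]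
  refine Finset.sum_congr rfl fun p _ => ?_
  by_cases h1 : p.1 ∈ A <;> by_cases h2 : p.2 ∈ A <;> simp [h1, h2]

/-- The error is not `O (N ^ θ)` for `θ < 1/4`. -/
theorem not_isBigO_repError (a : ℕ → ℕ) {c : ℝ} (hc : 0 < c) {θ : ℝ} (hθ : θ < 1 / 4) :
    ¬ (fun N : ℕ => repError a c N) =O[atTop] fun N : ℕ => (N : ℝ) ^ θ := by
  intro h
  obtain ⟨C, hC0, hC⟩ := h.exists_pos
  obtain ⟨δ, hδ, hfreq⟩ := frequently_repError_gt a hc
  have hlo := (isLittleO_log_rpow_atTop (r := 2 * (1 / 4 - θ)) (by linarith)).bound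
    (show (0 : ℝ) < (δ / C) ^ 2 by positivity)
  obtain ⟨N, hN, h1, h2, h3⟩ := (hfreq.and_eventually (hC.bound.and
    ((tendsto_natCast_atTop_atTop.eventually hlo).and (eventually_ge_atTop 3)))).exists
  have hN1 : (1 : ℝ) < N := by exact_mod_cast (by omega : 1 < N)
  have hN0 : (0 : ℝ) < N := by linarith
  have hlog := Real.log_pos hN1
  rw [Real.norm_eq_abs, Real.norm_of_nonneg (Real.rpow_nonneg hN0.le _)] at h1
  rw [Real.norm_of_nonneg hlog.le, Real.norm_of_nonneg (Real.rpow_nonneg hN0.le _)] at h2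
  have hq : 0 < (N : ℝ) ^ (1 / 4 - θ) := Real.rpow_pos_of_pos hN0 _
  have hs : √(Real.log N) ≤ δ / C * (N : ℝ) ^ (1 / 4 - θ) := by
    rw [Real.sqrt_le_left (by positivity), mul_pow]
    refine h2.trans (le_of_eq ?_)
    congr 1
    rw [← Real.rpow_natCast, ← Real.rpow_mul hN0.le, mul_comm (2 : ℝ)]
    norm_num
  have : δ * (N : ℝ) ^ (1 / 4 : ℝ) / √(Real.log N) ≥ C * (N : ℝ) ^ θ := by
    rw [ge_iff_le, le_div_iff₀ (Real.sqrt_pos.2 hlog)]
    calc C * (N : ℝ) ^ θ * √(Real.log N)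
        ≤ C * (N : ℝ) ^ θ * (δ / C * (N : ℝ) ^ (1 / 4 - θ)) := by gcongr
      _ = δ * ((N : ℝ) ^ θ * (N : ℝ) ^ (1 / 4 - θ)) := by field_simp
      _ = δ * (N : ℝ) ^ (1 / 4 : ℝ) := by rw [← Real.rpow_add hN0]; ring_nf
  linarith

end FA.ErdosFuchs

end
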