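import Mathlib.Analysis.SpecialFunctions.Integrals.Basic
import Mathlib.Analysis.SpecialFunctions.Trigonometric.Bounds

/-!
# The mean of `1 / |1 - z|` on the circle `|z| = 1 - ε`

It is at most `(4 / π) log ((ε + π) / ε)`.
-/

set_option autoImplicit false

noncomputable section

open MeasureTheory Complex
open scoped Real

namespace FA.ErdosFuchs

/-- `(ε + |θ|) / 4 ≤ |1 - r e^(i θ)|` for `r = 1 - ε`. -/
theorem kernel_le_norm {ε θ : ℝ} (hε : 0 ≤ ε) (hε2 : ε ≤ 1 / 2) (hθ : |θ| ≤ π) :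
    (ε + |θ|) / 4 ≤ ‖1 - ((1 - ε : ℝ) : ℂ) * exp (θ * I)‖ := by
  have hsq : ‖1 - ((1 - ε : ℝ) : ℂ) * exp (θ * I)‖ ^ 2 =
      ε ^ 2 + 4 * (1 - ε) * Real.sin (θ / 2) ^ 2 := by
    rw [← Complex.normSq_eq_norm_sq, Complex.normSq_apply]
    simp [Complex.exp_ofReal_mul_I_re, Complex.exp_ofReal_mul_I_im]
    have h1 := Real.sin_sq_add_cos_sq θ
    have h2 : Real.cos θ = 1 - 2 * Real.sin (θ / 2) ^ 2 := by
      have := Real.cos_two_mul' (θ / 2)
      rw [show 2 * (θ / 2) = θ by ring, Real.cos_sq'] at this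
      linarith
    linear_combination (1 - ε) ^ 2 * h1 + (-2 * (1 - ε)) * h2
  have hs : |θ| / π ≤ |Real.sin (θ / 2)| := by
    have h := Real.mul_le_sin (x := |θ| / 2) (by positivity) (by linarith)
    have he : Real.sin (|θ| / 2) ≤ |Real.sin (θ / 2)| := by
      rcases abs_choice θ with h' | h' <;> rw [h']
      · exact le_abs_self _
      · rw [neg_div, Real.sin_neg]; exact neg_le_abs _
    calc |θ| / π = 2 / π * (|θ| / 2) := by ring
      _ ≤ _ := h.trans he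
  have h3 : θ ^ 2 ≤ 16 * Real.sin (θ / 2) ^ 2 := by
    have hπ4 := Real.pi_le_four
    have h' : |θ| ≤ 4 * |Real.sin (θ / 2)| := by
      rw [div_le_iff₀ Real.pi_pos] at hs
      nlinarith [abs_nonneg (Real.sin (θ / 2))]
    have := pow_le_pow_left₀ (abs_nonneg θ) h' 2
    rw [sq_abs, mul_pow, sq_abs] at this
    linarith
  refine (sq_le_sq₀ (by positivity) (norm_nonneg _)).1 ?_
  rw [hsq]
  nlinarith [sq_nonneg (ε - |θ|), sq_abs θ, sq_nonneg (Real.sin (θ / 2))]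

theorem integral_inv_add_abs {ε : ℝ} (hε : 0 < ε) :
    ∫ θ in (-π)..π, (ε + |θ|)⁻¹ = 2 * Real.log ((ε + π) / ε) := by
  have hc : Continuous fun θ : ℝ => (ε + |θ|)⁻¹ :=
    (continuous_const.add continuous_abs).inv₀ fun θ =>
      ne_of_gt (add_pos_of_pos_of_nonneg hε (abs_nonneg θ))
  have hright : ∫ θ in (0 : ℝ)..π, (ε + |θ|)⁻¹ = Real.log ((ε + π) / ε) := by
    rw [intervalIntegral.integral_congr (g := fun θ => (fun x : ℝ => x⁻¹) (ε + θ))
      (fun θ hθ => by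
        rw [Set.uIcc_of_le Real.pi_pos.le] at hθ
        simp [abs_of_nonneg hθ.1]),
      intervalIntegral.integral_comp_add_left (fun x : ℝ => x⁻¹), add_zero,
      integral_inv_of_pos hε (by positivity)]
  have hleft : ∫ θ in (-π)..0, (ε + |θ|)⁻¹ = ∫ θ in (0 : ℝ)..π, (ε + |θ|)⁻¹ := by
    have := intervalIntegral.integral_comp_neg (a := (0 : ℝ)) (b := π)
      fun θ : ℝ => (ε + |θ|)⁻¹
    simpa [abs_neg] using this.symm
  rw [← intervalIntegral.integral_add_adjacent_intervals (b := (0 : ℝ))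
    (hc.intervalIntegrable _ _) (hc.intervalIntegrable _ _), hleft, hright]
  ring

theorem integral_inv_norm_le {ε : ℝ} (hε : 0 < ε) (hε2 : ε ≤ 1 / 2) :
    ∫ θ in (-π)..π, ‖1 - ((1 - ε : ℝ) : ℂ) * exp (θ * I)‖⁻¹ ≤
      8 * Real.log ((ε + π) / ε) := by
  have hpos : ∀ θ : ℝ, 0 < ‖1 - ((1 - ε : ℝ) : ℂ) * exp (θ * I)‖ := fun θ => by
    refine norm_pos_iff.2 (sub_ne_zero.2 fun h => ?_)
    have := congrArg norm h
    rw [norm_one, norm_mul, Complex.norm_real, Complex.norm_exp_ofReal_mul_I, mul_one,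
      Real.norm_of_nonneg (by linarith)] at this
    linarith
  have h : ∫ θ in (-π)..π, ‖1 - ((1 - ε : ℝ) : ℂ) * exp (θ * I)‖⁻¹ ≤
      ∫ θ in (-π)..π, 4 * (ε + |θ|)⁻¹ := by
    refine intervalIntegral.integral_mono_on (by linarith [Real.pi_pos]) ?_ ?_ fun θ hθ => ?_
    · exact ((by fun_prop : Continuous fun θ : ℝ =>
        ‖1 - ((1 - ε : ℝ) : ℂ) * exp (θ * I)‖).inv₀ fun θ => (hpos θ).ne').intervalIntegrable _ _
    · exact (((continuous_const.add continuous_abs).inv₀ fun θ =>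
      ne_of_gt (add_pos_of_pos_of_nonneg hε (abs_nonneg θ))).const_mul
        4).intervalIntegrable _ _
    · have hl := kernel_le_norm hε.le hε2 (abs_le.2 hθ)
      rw [show 4 * (ε + |θ|)⁻¹ = ((ε + |θ|) / 4)⁻¹ by rw [inv_div]; ring]
      exact inv_anti₀ (by positivity) hl
  refine h.trans (le_of_eq ?_)
  rw [intervalIntegral.integral_const_mul, integral_inv_add_abs hε]
  ring

end FA.ErdosFuchs

end
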