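import Mathlib.Analysis.Normed.Ring.InfiniteSum
import Mathlib.Analysis.SpecificLimits.Normed
import Mathlib.Algebra.BigOperators.NatAntidiagonal
import Mathlib.Analysis.Complex.Basic

/-!
# The power series

`a` is a sequence of multiplicities, `R n` the number of `(i, j)` with `i + j ≤ n`, weighted by
`a i a j`, and `e n = R n - c n`. Then `f z ^ 2 = c z / (1 - z) + (1 - z) E z` inside the unit disc.
-/

set_option autoImplicit false

noncomputable section

open Finset Filter Topology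

namespace FA.ErdosFuchs

/-- The representations of `n`. -/
def repCount (a : ℕ → ℕ) (n : ℕ) : ℕ := ∑ p ∈ antidiagonal n, a p.1 * a p.2

/-- The representations of all numbers up to `N`. -/
def repTotal (a : ℕ → ℕ) (N : ℕ) : ℕ := ∑ n ∈ range (N + 1), repCount a n

/-- The error term. -/
def repError (a : ℕ → ℕ) (c : ℝ) (n : ℕ) : ℝ := (repTotal a n : ℝ) - c * n

/-- The coefficients of `(1 + z + ... + z ^ (m - 1)) f z`. -/
def blockCoeff (a : ℕ → ℕ) (m n : ℕ) : ℕ := ∑ j ∈ range m, if j ≤ n then a (n - j) else 0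

/-- `∑ u n z ^ n`. -/
def powerSum (u : ℕ → ℂ) (z : ℂ) : ℂ := ∑' n : ℕ, u n * z ^ n

/-- `1 + z + ... + z ^ (m - 1)`. -/
def block (m : ℕ) (z : ℂ) : ℂ := ∑ j ∈ range m, z ^ j

variable {a : ℕ → ℕ} {c B : ℝ}

theorem repError_succ (a : ℕ → ℕ) (c : ℝ) (n : ℕ) :
    repError a c (n + 1) = repError a c n + repCount a (n + 1) - c := by
  rw [repError, repError, repTotal, repTotal, Finset.sum_range_succ _ (n + 1)]
  push_cast
  ring

theorem coeff_le (hc : 0 ≤ c) (h : ∀ n, |repError a c n| ≤ B * (n + 1)) (n : ℕ) :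
    (a n : ℝ) ≤ (2 * B + 2 * c + 1) * (n + 1) := by
  have hB : 0 ≤ B := by have := (abs_nonneg _).trans (h 0); simpa using this
  have h1 : a n * a n ≤ repTotal a (2 * n) :=
    le_trans (Finset.single_le_sum (f := fun p : ℕ × ℕ => a p.1 * a p.2) (fun _ _ => zero_le)
        (show (n, n) ∈ antidiagonal (2 * n) by simp [two_mul]))
      (Finset.single_le_sum (f := repCount a) (fun _ _ => zero_le) (by simp))
  have h2 := (abs_le.1 (h (2 * n))).2
  rw [repError] at h2
  push_cast at h2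
  have h3 : (a n : ℝ) ≤ repTotal a (2 * n) := by
    exact_mod_cast (Nat.le_mul_self _).trans h1
  nlinarith [mul_nonneg hc (Nat.cast_nonneg (α := ℝ) n)]

theorem summable_linear_mul_pow {r : ℝ} (hr : 0 ≤ r) (hr1 : r < 1) :
    Summable fun n : ℕ => ((n : ℝ) + 1) * r ^ n :=
  (((hasSum_coe_mul_geometric_of_norm_lt_one (r := r)
    (by rwa [Real.norm_of_nonneg hr])).summable).add
      (summable_geometric_of_lt_one hr hr1)).congr fun n => by ring

theorem summable_norm_mul_pow {u : ℕ → ℂ} (h : ∀ n, ‖u n‖ ≤ B * (n + 1)) {z : ℂ} (hz : ‖z‖ < 1) :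
    Summable fun n => ‖u n * z ^ n‖ :=
  Summable.of_nonneg_of_le (fun _ => norm_nonneg _) (fun n => by
    rw [norm_mul, norm_pow, ← mul_assoc]
    exact mul_le_mul_of_nonneg_right (h n) (by positivity))
    ((summable_linear_mul_pow (norm_nonneg z) hz).mul_left B)

theorem norm_natCast_le (hc : 0 ≤ c) (h : ∀ n, |repError a c n| ≤ B * (n + 1)) (n : ℕ) :
    ‖((a n : ℕ) : ℂ)‖ ≤ (2 * B + 2 * c + 1) * (n + 1) := by
  rw [Complex.norm_natCast]; exact coeff_le hc h n

theorem norm_repError_le (h : ∀ n, |repError a c n| ≤ B * (n + 1)) (n : ℕ) :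
    ‖((repError a c n : ℝ) : ℂ)‖ ≤ B * (n + 1) := by
  rw [Complex.norm_real]; exact h n

/-- **The functional equation.** -/
theorem sq_powerSum (hc : 0 ≤ c) (h : ∀ n, |repError a c n| ≤ B * (n + 1)) {z : ℂ}
    (hz : ‖z‖ < 1) :
    powerSum (fun n => (a n : ℂ)) z ^ 2 =
      (c : ℂ) * z / (1 - z) + (1 - z) * powerSum (fun n => (repError a c n : ℂ)) z := by
  set u : ℕ → ℂ := fun n => (a n : ℂ) * z ^ n with hu
  have ha : Summable fun n => ‖u n‖ := summable_norm_mul_pow (norm_natCast_le hc h) hz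
  have he := (summable_norm_mul_pow (norm_repError_le h) hz).of_norm.hasSum
  rw [pow_two, powerSum, tsum_mul_tsum_eq_tsum_sum_antidiagonal_of_summable_norm ha ha]
  have e1 : ∀ n, ∑ p ∈ antidiagonal n, u p.1 * u p.2 = (repCount a n : ℂ) * z ^ n := fun n => by
    rw [repCount, Nat.cast_sum, Finset.sum_mul]
    refine Finset.sum_congr rfl fun p hp => ?_
    rw [← Finset.mem_antidiagonal.1 hp]
    simp only [hu]
    push_cast
    ring
  simp only [e1]
  set E := powerSum (fun n => (repError a c n : ℂ)) z with hE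
  have hshift := (hasSum_nat_add_iff' 1).2 he
  have hgeo := hasSum_geometric_of_norm_lt_one hz
  have hsucc : HasSum (fun n : ℕ => (repCount a (n + 1) : ℂ) * z ^ (n + 1))
      ((E - (repError a c 0 : ℂ)) - z * E + (c : ℂ) * z * (1 - z)⁻¹) := by
    have := (hshift.sub (he.mul_left z)).add (hgeo.mul_left ((c : ℂ) * z))
    rw [Finset.sum_range_one, pow_zero, mul_one] at this
    refine this.congr_fun fun n => ?_
    rw [repError_succ]
    push_cast
    ring
  have hall := (hasSum_nat_add_iff (f := fun n : ℕ => (repCount a n : ℂ) * z ^ n) 1).1 hsucc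
  rw [hall.tsum_eq, Finset.sum_range_one, pow_zero, mul_one]
  have h0 : (repError a c 0 : ℂ) = (repCount a 0 : ℂ) := by simp [repError, repTotal]
  rw [h0]
  ring

theorem hasSum_blockCoeff (hc : 0 ≤ c) (h : ∀ n, |repError a c n| ≤ B * (n + 1)) (m : ℕ) {z : ℂ}
    (hz : ‖z‖ < 1) :
    HasSum (fun n => (blockCoeff a m n : ℂ) * z ^ n)
      (block m z * powerSum (fun n => (a n : ℂ)) z) := by
  have hf := (summable_norm_mul_pow (norm_natCast_le hc h) hz).of_norm.hasSum
  rw [block, Finset.sum_mul]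
  simp only [blockCoeff, Nat.cast_sum, Finset.sum_mul]
  refine hasSum_sum fun j _ => ?_
  have hinj : Function.Injective fun n : ℕ => n + j := fun x y hxy => by simpa using hxy
  refine (hinj.hasSum_iff fun n hn => ?_).1 ((hf.mul_left (z ^ j)).congr_fun fun n => ?_)
  · rw [if_neg fun hle => hn ⟨n - j, Nat.sub_add_cancel hle⟩]
    simp
  · simp only [Function.comp_apply, if_pos (Nat.le_add_left j n), Nat.add_sub_cancel, pow_add]
    ring

theorem blockCoeff_le (hc : 0 ≤ c) (h : ∀ n, |repError a c n| ≤ B * (n + 1)) (m n : ℕ) :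
    (blockCoeff a m n : ℝ) ≤ m * (2 * B + 2 * c + 1) * (n + 1) := by
  have hB : 0 ≤ B := by have := (abs_nonneg _).trans (h 0); simpa using this
  rw [blockCoeff, Nat.cast_sum, mul_assoc]
  refine (Finset.sum_le_card_nsmul _ _ ((2 * B + 2 * c + 1) * ((n : ℝ) + 1)) fun j _ => ?_).trans
    (by rw [Finset.card_range, nsmul_eq_mul])
  split_ifs
  · exact (coeff_le hc h _).trans (mul_le_mul_of_nonneg_left
      (by exact_mod_cast Nat.succ_le_succ (Nat.sub_le n j)) (by linarith))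
  · rw [Nat.cast_zero]
    positivity

theorem one_sub_mul_block (m : ℕ) (z : ℂ) : (1 - z) * block m z = 1 - z ^ m := by
  rw [block, mul_comm, geom_sum_mul_neg]

theorem norm_block_le (m : ℕ) {z : ℂ} (hz : ‖z‖ ≤ 1) : ‖block m z‖ ≤ m := by
  refine (norm_sum_le _ _).trans ((Finset.sum_le_card_nsmul _ _ 1 fun j _ => ?_).trans (by simp))
  rw [norm_pow]
  exact pow_le_one₀ (norm_nonneg _) hz

/-- The pointwise bound behind the theorem. -/
theorem norm_sq_block_mul_le (hc : 0 ≤ c) (h : ∀ n, |repError a c n| ≤ B * (n + 1)) (m : ℕ)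
    {z : ℂ} (hz : ‖z‖ < 1) {t : ℝ} (ht : 0 < t) :
    ‖block m z * powerSum (fun n => (a n : ℂ)) z‖ ^ 2 ≤
      c * (m : ℝ) ^ 2 * ‖1 - z‖⁻¹ + t * ‖powerSum (fun n => (repError a c n : ℂ)) z‖ ^ 2 +
        t⁻¹ * ‖block m z‖ ^ 2 := by
  set E := powerSum (fun n => (repError a c n : ℂ)) z
  have h1 : ‖block m z * powerSum (fun n => (a n : ℂ)) z‖ ^ 2 ≤
      ‖block m z‖ ^ 2 * (c * ‖1 - z‖⁻¹ + ‖1 - z‖ * ‖E‖) := by
    rw [norm_mul, mul_pow, ← norm_pow (powerSum (fun n => (a n : ℂ)) z) 2, sq_powerSum hc h hz]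
    refine mul_le_mul_of_nonneg_left ((norm_add_le _ _).trans (add_le_add ?_ (norm_mul_le _ _)))
      (by positivity)
    rw [norm_div, norm_mul, Complex.norm_real, Real.norm_of_nonneg hc, div_eq_mul_inv]
    exact mul_le_mul_of_nonneg_right (mul_le_of_le_one_right hc hz.le) (by positivity)
  have hk : ‖1 - z‖ * ‖block m z‖ ≤ 2 := by
    rw [← norm_mul, one_sub_mul_block]
    refine (norm_sub_le _ _).trans ?_
    rw [norm_one, norm_pow]
    linarith [pow_le_one₀ (n := m) (norm_nonneg z) hz.le]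
  have h2 : ‖block m z‖ ^ 2 * (c * ‖1 - z‖⁻¹) ≤ c * (m : ℝ) ^ 2 * ‖1 - z‖⁻¹ := by
    rw [show ‖block m z‖ ^ 2 * (c * ‖1 - z‖⁻¹) = c * ‖block m z‖ ^ 2 * ‖1 - z‖⁻¹ by ring]
    exact mul_le_mul_of_nonneg_right (mul_le_mul_of_nonneg_left
      (pow_le_pow_left₀ (norm_nonneg _) (norm_block_le m hz.le) 2) hc) (by positivity)
  have h3 : ‖block m z‖ ^ 2 * (‖1 - z‖ * ‖E‖) ≤ t * ‖E‖ ^ 2 + t⁻¹ * ‖block m z‖ ^ 2 := by
    have hb : ‖block m z‖ ^ 2 * (‖1 - z‖ * ‖E‖) ≤ 2 * (‖block m z‖ * ‖E‖) := by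
      rw [show ‖block m z‖ ^ 2 * (‖1 - z‖ * ‖E‖) =
        ‖1 - z‖ * ‖block m z‖ * (‖block m z‖ * ‖E‖) by ring]
      exact mul_le_mul_of_nonneg_right hk (by positivity)
    refine hb.trans ?_
    have hsq : t⁻¹ * (t * ‖E‖ - ‖block m z‖) ^ 2 =
        t * ‖E‖ ^ 2 + t⁻¹ * ‖block m z‖ ^ 2 - 2 * (‖block m z‖ * ‖E‖) := by
      field_simp; ring
    nlinarith [mul_nonneg (inv_nonneg.2 ht.le) (sq_nonneg (t * ‖E‖ - ‖block m z‖))]
  linarith [mul_add (‖block m z‖ ^ 2) (c * ‖1 - z‖⁻¹) (‖1 - z‖ * ‖E‖)]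

end FA.ErdosFuchs

end
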