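import Fermat.Agent.ErdosFuchs.Parseval
import Fermat.Agent.ErdosFuchs.Kernel
import Fermat.Agent.ErdosFuchs.Series
import Mathlib.Analysis.SpecialFunctions.Pow.Asymptotics
import Mathlib.Analysis.Complex.ExponentialBounds
import Mathlib.Analysis.Real.Pi.Bounds

/-!
# The theorem of Erdős and Fuchs

`R N - c N` exceeds a fixed multiple of `N ^ (1/4) / √(log N)` in absolute value for infinitely
many `N`.
-/

set_option autoImplicit false

noncomputable section

open MeasureTheory Finset Filter Topology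
open scoped Real

namespace FA.ErdosFuchs

variable {a : ℕ → ℕ} {c B : ℝ}

/-- The mean square of a power series on `|z| = r`. -/
theorem hasSum_normSq_powerSum {u : ℕ → ℂ} {r : ℝ} (hr : 0 ≤ r)
    (hu : Summable fun n => ‖u n‖ * r ^ n) :
    HasSum (fun n => ‖u n‖ ^ 2 * (r ^ 2) ^ n)
      ((∫ θ in (-π)..π, ‖powerSum u ((r : ℂ) * Complex.exp (θ * Complex.I))‖ ^ 2) / (2 * π)) := by
  have hb : Summable fun n => ‖u n * (r : ℂ) ^ n‖ := hu.congr fun n => by
    rw [norm_mul, norm_pow, Complex.norm_real, Real.norm_of_nonneg hr]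
  have e : ∀ θ : ℝ, waveSeries (fun n => u n * (r : ℂ) ^ n) θ =
      powerSum u ((r : ℂ) * Complex.exp (θ * Complex.I)) := fun θ => by
    refine tsum_congr fun n => ?_
    rw [wave, mul_pow, ← Complex.exp_nat_mul]
    push_cast
    ring_nf
  have h := hasSum_normSq_waveSeries hb
  simp only [e] at h
  refine h.congr_fun fun n => ?_
  rw [norm_mul, norm_pow, Complex.norm_real, Real.norm_of_nonneg hr, mul_pow, ← pow_mul, ← pow_mul,
    mul_comm 2 n]

theorem block_eq_powerSum (m : ℕ) (z : ℂ) :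
    powerSum (fun n => if n < m then 1 else 0) z = block m z := by
  rw [powerSum, block, tsum_eq_sum (s := range m) fun n hn => by
    rw [if_neg (by simpa using hn), zero_mul]]
  exact Finset.sum_congr rfl fun n hn => by rw [if_pos (Finset.mem_range.1 hn), one_mul]

theorem continuous_powerSum_circle {u : ℕ → ℂ} {r : ℝ} (hr : 0 ≤ r)
    (hu : Summable fun n => ‖u n‖ * r ^ n) :
    Continuous fun θ : ℝ => powerSum u ((r : ℂ) * Complex.exp (θ * Complex.I)) := by
  refine continuous_tsum (fun n => by fun_prop) hu fun n θ => ?_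
  rw [norm_mul, norm_pow, norm_mul, Complex.norm_exp_ofReal_mul_I, mul_one, Complex.norm_real,
    Real.norm_of_nonneg hr]

/-- **The integrated inequality** at `r = 1 - ε`. -/
theorem mean_bound (hc : 0 ≤ c) (h : ∀ n, |repError a c n| ≤ B * (n + 1)) (m : ℕ) {ε : ℝ}
    (hε : 0 < ε) (hε2 : ε ≤ 1 / 2) {t : ℝ} (ht : 0 < t) :
    (∑ j ∈ range m, ((1 - ε) ^ 2) ^ j) * ∑' n, (a n : ℝ) * ((1 - ε) ^ 2) ^ n ≤
      c * (m : ℝ) ^ 2 * (8 * Real.log ((ε + π) / ε)) / (2 * π) +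
        t * ∑' n, repError a c n ^ 2 * ((1 - ε) ^ 2) ^ n + t⁻¹ * m := by
  set r := 1 - ε with hr
  have hr0 : 0 ≤ r := by linarith
  have hr1 : r < 1 := by linarith
  have hx1 : r ^ 2 < 1 := by nlinarith
  have hlin := summable_linear_mul_pow hr0 hr1
  set H : ℕ → ℂ := fun n => (blockCoeff a m n : ℂ) with hH
  set E : ℕ → ℂ := fun n => (repError a c n : ℂ) with hE
  set G : ℕ → ℂ := fun n => if n < m then 1 else 0 with hG
  have hsH : Summable fun n => ‖H n‖ * r ^ n :=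
    Summable.of_nonneg_of_le (fun n => by positivity) (fun n => by
      rw [hH, Complex.norm_natCast, ← mul_assoc]
      exact mul_le_mul_of_nonneg_right (blockCoeff_le hc h m n) (by positivity))
      (hlin.mul_left ((m : ℝ) * (2 * B + 2 * c + 1)))
  have hsE : Summable fun n => ‖E n‖ * r ^ n :=
    Summable.of_nonneg_of_le (fun n => by positivity) (fun n => by
      rw [hE, ← mul_assoc]
      exact mul_le_mul_of_nonneg_right (norm_repError_le h n) (by positivity)) (hlin.mul_left B)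
  have hsG : Summable fun n => ‖G n‖ * r ^ n :=
    summable_of_ne_finset_zero (s := range m) fun n hn => by
      rw [hG]; simp only [if_neg (by simpa using hn : ¬ n < m), norm_zero, zero_mul]
  set w : ℝ → ℂ := fun θ => (r : ℂ) * Complex.exp (θ * Complex.I) with hw
  have hwn : ∀ θ, ‖w θ‖ < 1 := fun θ => by
    rw [hw, norm_mul, Complex.norm_exp_ofReal_mul_I, mul_one, Complex.norm_real,
      Real.norm_of_nonneg hr0]
    exact hr1
  have hpoint : ∀ θ, ‖powerSum H (w θ)‖ ^ 2 ≤ c * (m : ℝ) ^ 2 * ‖1 - w θ‖⁻¹ +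
      t * ‖powerSum E (w θ)‖ ^ 2 + t⁻¹ * ‖powerSum G (w θ)‖ ^ 2 := fun θ => by
    have e : powerSum H (w θ) = block m (w θ) * powerSum (fun n => (a n : ℂ)) (w θ) :=
      (hasSum_blockCoeff hc h m (hwn θ)).tsum_eq
    rw [e, hG, block_eq_powerSum]
    exact norm_sq_block_mul_le hc h m (hwn θ) ht
  have cH : Continuous fun θ => ‖powerSum H (w θ)‖ ^ 2 :=
    (continuous_powerSum_circle hr0 hsH).norm.pow 2
  have cE : Continuous fun θ => t * ‖powerSum E (w θ)‖ ^ 2 :=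
    ((continuous_powerSum_circle hr0 hsE).norm.pow 2).const_mul t
  have cG : Continuous fun θ => t⁻¹ * ‖powerSum G (w θ)‖ ^ 2 :=
    ((continuous_powerSum_circle hr0 hsG).norm.pow 2).const_mul t⁻¹
  have cK : Continuous fun θ : ℝ => c * (m : ℝ) ^ 2 * ‖1 - w θ‖⁻¹ := by
    refine ((by rw [hw]; fun_prop : Continuous fun θ => ‖1 - w θ‖).inv₀ fun θ =>
      norm_ne_zero_iff.2 (sub_ne_zero.2 fun he => ?_)).const_mul _
    have := hwn θ
    rw [← he, norm_one] at this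
    exact lt_irrefl _ this
  have cKE : Continuous fun θ => c * (m : ℝ) ^ 2 * ‖1 - w θ‖⁻¹ +
      t * ‖powerSum E (w θ)‖ ^ 2 := cK.add cE
  have cAll : Continuous fun θ => c * (m : ℝ) ^ 2 * ‖1 - w θ‖⁻¹ +
      t * ‖powerSum E (w θ)‖ ^ 2 + t⁻¹ * ‖powerSum G (w θ)‖ ^ 2 := cKE.add cG
  have hint := intervalIntegral.integral_mono_on (μ := volume) (a := -π) (b := π)
    (by linarith [Real.pi_pos]) (cH.intervalIntegrable _ _)
    (cAll.intervalIntegrable _ _) fun θ _ => hpoint θ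
  rw [intervalIntegral.integral_add (cKE.intervalIntegrable _ _)
      (cG.intervalIntegrable _ _),
    intervalIntegral.integral_add (cK.intervalIntegrable _ _) (cE.intervalIntegrable _ _),
    intervalIntegral.integral_const_mul, intervalIntegral.integral_const_mul,
    intervalIntegral.integral_const_mul] at hint
  have vH := hasSum_normSq_powerSum hr0 hsH
  have vE := hasSum_normSq_powerSum hr0 hsE
  have vG := hasSum_normSq_powerSum hr0 hsG
  have hker := integral_inv_norm_le hε hε2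
  have hG' : (∫ θ in (-π)..π, ‖powerSum G (w θ)‖ ^ 2) / (2 * π) ≤ m := by
    rw [← vG.tsum_eq, tsum_eq_sum (s := range m) fun n hn => by
      rw [hG]; simp only [if_neg (by simpa using hn : ¬ n < m), norm_zero]; simp]
    refine (Finset.sum_le_card_nsmul _ _ 1 fun n hn => ?_).trans (by simp)
    rw [hG]
    simp only [if_pos (Finset.mem_range.1 hn), norm_one, one_pow, one_mul]
    exact pow_le_one₀ (by positivity) hx1.le
  have hE' : (∫ θ in (-π)..π, ‖powerSum E (w θ)‖ ^ 2) / (2 * π) =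
      ∑' n, repError a c n ^ 2 * (r ^ 2) ^ n := by
    rw [← vE.tsum_eq]
    exact tsum_congr fun n => by rw [hE, Complex.norm_real, Real.norm_eq_abs, sq_abs]
  have hLHS : (∑ j ∈ range m, (r ^ 2) ^ j) * ∑' n, (a n : ℝ) * (r ^ 2) ^ n ≤
      (∫ θ in (-π)..π, ‖powerSum H (w θ)‖ ^ 2) / (2 * π) := by
    have hz : ‖((r ^ 2 : ℝ) : ℂ)‖ < 1 := by
      rw [Complex.norm_real, Real.norm_of_nonneg (by positivity)]; exact hx1
    have hb := Complex.reCLM.hasSum (hasSum_blockCoeff hc h m hz)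
    rw [powerSum, block] at hb
    simp only [← Complex.ofReal_natCast, ← Complex.ofReal_pow, ← Complex.ofReal_mul,
      ← Complex.ofReal_tsum, ← Complex.ofReal_sum, Complex.reCLM_apply, Complex.ofReal_re] at hb
    refine hasSum_le (fun n => ?_) hb vH
    rw [hH, Complex.norm_natCast]
    refine mul_le_mul_of_nonneg_right ?_ (by positivity)
    exact_mod_cast Nat.le_self_pow two_ne_zero _
  refine hLHS.trans ?_
  rw [← hE']
  have hπ := Real.pi_pos
  have h1 : c * (m : ℝ) ^ 2 * (∫ θ in (-π)..π, ‖1 - w θ‖⁻¹) ≤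
      c * (m : ℝ) ^ 2 * (8 * Real.log ((ε + π) / ε)) :=
    mul_le_mul_of_nonneg_left hker (by positivity)
  have h2 := mul_le_mul_of_nonneg_left hG' (inv_nonneg.2 ht.le)
  refine (div_le_div_of_nonneg_right (hint.trans (add_le_add (add_le_add h1 le_rfl) le_rfl))
    (by positivity)).trans ?_
  rw [add_div, add_div, mul_div_assoc t, mul_div_assoc t⁻¹]
  exact add_le_add le_rfl h2

theorem le_sq_tsum (hc : 0 ≤ c) (h : ∀ n, |repError a c n| ≤ B * (n + 1)) {x : ℝ} (hx : 0 ≤ x)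
    (hx1 : x < 1) :
    c * x / (1 - x) - (1 - x) * ∑' n, |repError a c n| * x ^ n ≤
      (∑' n, (a n : ℝ) * x ^ n) ^ 2 := by
  have hz : ‖(x : ℂ)‖ < 1 := by rw [Complex.norm_real, Real.norm_of_nonneg hx]; exact hx1
  have he := sq_powerSum hc h hz
  simp only [powerSum, ← Complex.ofReal_natCast, ← Complex.ofReal_pow, ← Complex.ofReal_mul,
    ← Complex.ofReal_tsum, ← Complex.ofReal_one, ← Complex.ofReal_sub, ← Complex.ofReal_div,
    ← Complex.ofReal_add, Complex.ofReal_inj] at he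
  rw [he]
  have hs : Summable fun n => |repError a c n| * x ^ n :=
    Summable.of_nonneg_of_le (fun n => by positivity) (fun n => by
      rw [← mul_assoc]; exact mul_le_mul_of_nonneg_right (h n) (by positivity))
      ((summable_linear_mul_pow hx hx1).mul_left B)
  have hle : -∑' n, |repError a c n| * x ^ n ≤ ∑' n, repError a c n * x ^ n := by
    rw [← tsum_neg]
    refine hs.neg.tsum_le_tsum (fun n => ?_) (Summable.of_norm_bounded hs fun n => by
      rw [norm_mul, Real.norm_eq_abs, norm_pow, Real.norm_of_nonneg hx])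
    rw [← neg_mul]
    exact mul_le_mul_of_nonneg_right (neg_abs_le _) (by positivity)
  nlinarith [mul_le_mul_of_nonneg_left hle (by linarith : (0 : ℝ) ≤ 1 - x)]

theorem rpow_quarter_sq (n : ℕ) : ((n : ℝ) ^ (1 / 4 : ℝ)) ^ 2 = √(n : ℝ) := by
  rw [← Real.rpow_natCast, ← Real.rpow_mul (Nat.cast_nonneg n), Real.sqrt_eq_rpow]
  norm_num

theorem rpow_quarter_le (n : ℕ) : (n : ℝ) ^ (1 / 4 : ℝ) ≤ (n : ℝ) + 1 := by
  rcases Nat.eq_zero_or_pos n with rfl | hn
  · simp
  · exact (Real.rpow_le_self_of_one_le (Nat.one_le_cast.2 hn) (by norm_num)).trans (by linarith)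

/-- The bound for the squared error, valid for all `n`. -/
theorem sq_error_le {δ B₀ : ℝ} {n N : ℕ} (hN : 3 ≤ N)
    (h : |repError a c n| ≤ B₀ ∨
      3 ≤ n ∧ |repError a c n| ≤ δ * (n : ℝ) ^ (1 / 4 : ℝ) / √(Real.log n)) :
    repError a c n ^ 2 ≤ B₀ ^ 2 + δ ^ 2 * (N : ℝ) ^ (1 / 4 : ℝ) +
      δ ^ 2 * (√(N : ℝ) + n / √(N : ℝ)) / Real.log N := by
  have hN1 : (1 : ℝ) < N := by exact_mod_cast (by omega : 1 < N)
  have hlog := Real.log_pos hN1
  have hsN : (0 : ℝ) < √(N : ℝ) := Real.sqrt_pos.2 (by linarith)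
  have hterm : 0 ≤ δ ^ 2 * (√(N : ℝ) + n / √(N : ℝ)) / Real.log N := by positivity
  have hterm2 : 0 ≤ δ ^ 2 * (N : ℝ) ^ (1 / 4 : ℝ) := by positivity
  rcases h with h | ⟨hn, h⟩
  · have := pow_le_pow_left₀ (abs_nonneg _) h 2
    rw [sq_abs] at this
    linarith [sq_nonneg B₀]
  have hn3 : (3 : ℝ) ≤ n := by exact_mod_cast hn
  have hl1 : 1 ≤ Real.log n := by
    rw [← Real.log_exp 1]
    exact Real.log_le_log (Real.exp_pos 1) (by linarith [Real.exp_one_lt_d9])
  have h2 := pow_le_pow_left₀ (abs_nonneg _) h 2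
  rw [sq_abs, div_pow, mul_pow, rpow_quarter_sq, Real.sq_sqrt (by linarith)] at h2
  rcases le_or_gt (√(N : ℝ)) n with hbig | hsmall
  · have hl : Real.log N / 2 ≤ Real.log n := by
      rw [← Real.log_sqrt (Nat.cast_nonneg N)]
      exact Real.log_le_log hsN hbig
    have ham : 2 * √(n : ℝ) ≤ √(N : ℝ) + n / √(N : ℝ) := by
      rw [← sub_nonneg, show √(N : ℝ) + n / √(N : ℝ) - 2 * √(n : ℝ) =
        (√(N : ℝ) - √(n : ℝ)) ^ 2 / √(N : ℝ) by
          field_simp
          rw [sub_sq, Real.sq_sqrt (Nat.cast_nonneg n), Real.sq_sqrt (Nat.cast_nonneg N)]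
          ring]
      positivity
    have h3 : δ ^ 2 * √(n : ℝ) / Real.log n ≤
        δ ^ 2 * (√(N : ℝ) + n / √(N : ℝ)) / Real.log N := by
      rw [div_le_div_iff₀ (by linarith) hlog]
      have := mul_le_mul_of_nonneg_left ham (by positivity : (0 : ℝ) ≤ δ ^ 2)
      nlinarith [mul_le_mul_of_nonneg_left hl (by positivity : (0 : ℝ) ≤ δ ^ 2 * √(n : ℝ))]
    linarith [sq_nonneg B₀]
  · have h3 : δ ^ 2 * √(n : ℝ) / Real.log n ≤ δ ^ 2 * (N : ℝ) ^ (1 / 4 : ℝ) := by
      refine (div_le_self (by positivity) hl1).trans (mul_le_mul_of_nonneg_left ?_ (by positivity))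
      rw [← sq_le_sq₀ (by positivity) (by positivity), Real.sq_sqrt (Nat.cast_nonneg n),
        rpow_quarter_sq]
      exact hsmall.le
    linarith [sq_nonneg B₀]

theorem eventually_negligible {δ : ℝ} (hδ : δ ≠ 0) (B₀ : ℝ) :
    ∀ᶠ N : ℕ in atTop, (B₀ ^ 2 + δ ^ 2 * (N : ℝ) ^ (1 / 4 : ℝ)) * N ≤
      δ ^ 2 * (N * √(N : ℝ)) / Real.log N := by
  have hlo := (isLittleO_log_rpow_atTop (r := 1 / 4) (by norm_num)).bound
    (show (0 : ℝ) < δ ^ 2 / (B₀ ^ 2 + δ ^ 2) by positivity)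
  filter_upwards [tendsto_natCast_atTop_atTop.eventually hlo, eventually_ge_atTop 3] with N hN hN3
  have hN1 : (1 : ℝ) < N := by exact_mod_cast (by omega : 1 < N)
  have hlog := Real.log_pos hN1
  rw [Real.norm_of_nonneg hlog.le, Real.norm_of_nonneg (by positivity)] at hN
  rw [le_div_iff₀ hlog]
  have hq : (1 : ℝ) ≤ (N : ℝ) ^ (1 / 4 : ℝ) := Real.one_le_rpow hN1.le (by norm_num)
  set q := (N : ℝ) ^ (1 / 4 : ℝ)
  have hqq : √(N : ℝ) = q * q := by rw [← rpow_quarter_sq, pow_two]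
  have hB : B₀ ^ 2 + δ ^ 2 * q ≤ (B₀ ^ 2 + δ ^ 2) * q := by nlinarith [sq_nonneg B₀]
  have hδ2 : 0 < B₀ ^ 2 + δ ^ 2 := by positivity
  have hN' : (B₀ ^ 2 + δ ^ 2) * Real.log N ≤ δ ^ 2 * q := by
    rw [div_mul_eq_mul_div, le_div_iff₀ hδ2] at hN
    linarith
  calc (B₀ ^ 2 + δ ^ 2 * q) * N * Real.log N ≤ (B₀ ^ 2 + δ ^ 2) * q * N * Real.log N := by
        refine mul_le_mul_of_nonneg_right (mul_le_mul_of_nonneg_right hB (by positivity)) hlog.le
    _ = q * N * ((B₀ ^ 2 + δ ^ 2) * Real.log N) := by ring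
    _ ≤ q * N * (δ ^ 2 * q) := mul_le_mul_of_nonneg_left hN' (by positivity)
    _ = δ ^ 2 * (N * √(N : ℝ)) := by rw [hqq]; ring

/-- The lower bound for the generating series at `x`, `1 / N ≤ 1 - x ≤ 2 / N`. -/
theorem le_generating_sq (hc : 0 < c) {δ B₀ : ℝ} (hB0 : 0 ≤ B₀) (hδ : 0 < δ) (hδc : δ ≤ c / 16)
    (hlin : ∀ n, |repError a c n| ≤ B₀ + δ * ((n : ℝ) + 1))
    (hbd : ∀ n, |repError a c n| ≤ (B₀ + δ) * (n + 1)) {N x ε : ℝ} (hN : 8 ≤ N) (hεN : ε * N = 1)
    (hB16 : 16 * B₀ ≤ c * N) (hx0 : 0 ≤ x) (hx1 : x < 1) (hxlo : 1 - 2 * ε ≤ x)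
    (hgeo : (1 - x)⁻¹ ≤ N) : c * N / 8 ≤ (∑' n, (a n : ℝ) * x ^ n) ^ 2 := by
  have hε8 : ε ≤ 1 / 8 := by nlinarith
  have hnorm : ‖x‖ < 1 := by rwa [Real.norm_of_nonneg hx0]
  have hsum0 := hasSum_geometric_of_lt_one hx0 hx1
  have hsum1 := hasSum_coe_mul_geometric_of_norm_lt_one hnorm
  refine le_trans ?_ (le_sq_tsum hc.le hbd hx0 hx1)
  have hdom : HasSum (fun n : ℕ => (B₀ + δ) * x ^ n + δ * ((n : ℝ) * x ^ n))
      ((B₀ + δ) * (1 - x)⁻¹ + δ * (x / (1 - x) ^ 2)) :=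
    (hsum0.mul_left _).add (hsum1.mul_left δ)
  have hT : ∑' n, |repError a c n| * x ^ n ≤ (B₀ + δ) * (1 - x)⁻¹ + δ * (x / (1 - x) ^ 2) := by
    rw [← hdom.tsum_eq]
    refine (Summable.of_nonneg_of_le (fun n => by positivity) (fun n => ?_) hdom.summable
      ).tsum_le_tsum (fun n => ?_) hdom.summable
    all_goals
      exact (mul_le_mul_of_nonneg_right (hlin n) (pow_nonneg hx0 n)).trans (le_of_eq (by ring))
  have h1x : 1 - x ≤ 2 * ε := by linarith
  have hpos : 0 < 1 - x := by linarith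
  have h2 : (1 - x) * ∑' n, |repError a c n| * x ^ n ≤ B₀ + δ + δ * N := by
    refine (mul_le_mul_of_nonneg_left hT hpos.le).trans ?_
    rw [mul_add, show (1 - x) * ((B₀ + δ) * (1 - x)⁻¹) = B₀ + δ by field_simp]
    refine add_le_add le_rfl ?_
    rw [show (1 - x) * (δ * (x / (1 - x) ^ 2)) = δ * (x * (1 - x)⁻¹) by field_simp]
    exact mul_le_mul_of_nonneg_left ((mul_le_of_le_one_left (inv_nonneg.2 hpos.le) hx1.le).trans
      hgeo) hδ.le
  have h3 : c * (3 / 4) * (N / 2) ≤ c * x / (1 - x) := by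
    rw [mul_div_assoc c x, mul_assoc]
    refine mul_le_mul_of_nonneg_left ?_ hc.le
    rw [le_div_iff₀ hpos]
    nlinarith [mul_le_mul_of_nonneg_left h1x (by positivity : (0 : ℝ) ≤ 3 / 4 * (N / 2))]
  nlinarith

/-- The bound for the mean square of the error. -/
theorem tsum_sq_error_le {δ B₀ : ℝ} (hδ : 0 < δ) {N : ℕ} (hN : 3 ≤ N)
    (hneg : (B₀ ^ 2 + δ ^ 2 * (N : ℝ) ^ (1 / 4 : ℝ)) * N ≤
      δ ^ 2 * (N * √(N : ℝ)) / Real.log N)
    (hcases : ∀ n, |repError a c n| ≤ B₀ ∨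
      3 ≤ n ∧ |repError a c n| ≤ δ * (n : ℝ) ^ (1 / 4 : ℝ) / √(Real.log n))
    {x : ℝ} (hx0 : 0 ≤ x) (hx1 : x < 1) (hgeo : (1 - x)⁻¹ ≤ (N : ℝ)) :
    ∑' n, repError a c n ^ 2 * x ^ n ≤ 3 * (δ ^ 2 * (N * √(N : ℝ)) / Real.log N) := by
  have hnorm : ‖x‖ < 1 := by rwa [Real.norm_of_nonneg hx0]
  have hsum0 := hasSum_geometric_of_lt_one hx0 hx1
  have hsum1 := hasSum_coe_mul_geometric_of_norm_lt_one hnorm
  have hxn : x / (1 - x) ^ 2 ≤ (N : ℝ) ^ 2 := by
    rw [div_eq_mul_inv, ← inv_pow]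
    exact (mul_le_of_le_one_left (by positivity) hx1.le).trans
      (pow_le_pow_left₀ (inv_nonneg.2 (by linarith)) hgeo 2)
  have hN0 : (0 : ℝ) < N := Nat.cast_pos.2 (by omega)
  set L := Real.log N with hL
  have hL0 : 0 < L := Real.log_pos (by exact_mod_cast (by omega : 1 < N))
  set s := √(N : ℝ) with hs
  have hs0 : 0 < s := Real.sqrt_pos.2 hN0
  have hss : s * s = N := Real.mul_self_sqrt hN0.le
  have hK : 0 ≤ δ ^ 2 / L := by positivity
  set K : ℝ := B₀ ^ 2 + δ ^ 2 * (N : ℝ) ^ (1 / 4 : ℝ) + δ ^ 2 / L * s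
  have hdom : HasSum (fun n : ℕ => K * x ^ n + δ ^ 2 / L / s * ((n : ℝ) * x ^ n))
      (K * (1 - x)⁻¹ + δ ^ 2 / L / s * (x / (1 - x) ^ 2)) :=
    (hsum0.mul_left _).add (hsum1.mul_left _)
  have hpt : ∀ n : ℕ, repError a c n ^ 2 * x ^ n ≤
      K * x ^ n + δ ^ 2 / L / s * ((n : ℝ) * x ^ n) := fun n => by
    refine (mul_le_mul_of_nonneg_right (sq_error_le hN (hcases n))
      (pow_nonneg hx0 n)).trans (le_of_eq ?_)
    simp only [K, hL, hs]
    ring
  refine ((Summable.of_nonneg_of_le (fun n => by positivity) hpt hdom.summable).tsum_le_tsum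
    hpt hdom.summable).trans ?_
  rw [hdom.tsum_eq]
  refine (add_le_add (mul_le_mul_of_nonneg_left hgeo (by simp only [K]; positivity))
    (mul_le_mul_of_nonneg_left hxn (by positivity))).trans ?_
  have e : δ ^ 2 / L / s * (N : ℝ) ^ 2 = δ ^ 2 * (N * s) / L := by
    rw [← hss]; field_simp
  have e2 : δ ^ 2 / L * s * N = δ ^ 2 * (N * s) / L := by ring
  simp only [K]
  rw [e, add_mul, e2]
  linarith

/-- Bernoulli: `1 / 2 ≤ x ^ j` for `j ≤ m`. -/
theorem half_le_pow {x ε : ℝ} {m j : ℕ} (hx0 : 0 ≤ x) (hx1 : x ≤ 1) (hxlo : 1 - 2 * ε ≤ x)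
    (hm : ε * (4 * m) ≤ 1) (hj : j ≤ m) : (1 / 2 : ℝ) ≤ x ^ j := by
  refine le_trans ?_ (pow_le_pow_of_le_one hx0 hx1 hj)
  have hber := one_add_mul_le_pow (show (-2 : ℝ) ≤ x - 1 by linarith) m
  rw [add_sub_cancel] at hber
  nlinarith [mul_le_mul_of_nonneg_left hxlo (Nat.cast_nonneg (α := ℝ) m)]

theorem log_kernel_le {N : ℝ} (hN : 8 ≤ N) :
    Real.log ((1 / N + π) / (1 / N)) ≤ 2 * Real.log N := by
  have hN0 : 0 < N := by linarith
  rw [show (2 : ℝ) * Real.log N = Real.log (N ^ 2) by rw [Real.log_pow]; norm_num]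
  refine Real.log_le_log (by positivity) ?_
  rw [add_div, div_self (by positivity), div_div_eq_mul_div, div_one]
  nlinarith [Real.pi_le_four]

/-- The choice of the parameters. -/
theorem parameters_absurd (hc : 0 < c) {κ δ N s L m F G S K t : ℝ} (hκ : κ = 1 / (384 * √c))
    (hδ2 : δ ^ 2 ≤ κ * c / 5760) (hs : 0 < s) (hss : s * s = N) (hL : 0 < L)
    (hm1 : κ * s / L ≤ m) (hm2 : m ≤ 2 * (κ * s / L)) (hG : m / 2 ≤ G) (hF : √c * s / 3 ≤ F)
    (hS : S ≤ 3 * (δ ^ 2 * (N * s) / L)) (hK0 : 0 ≤ K) (hK : K ≤ 2 * L)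
    (ht : t = 48 / (√c * s))
    (hmean : G * F ≤ c * m ^ 2 * (8 * K) / (2 * π) + t * S + t⁻¹ * m) : False := by
  have hsc : 0 < √c := Real.sqrt_pos.2 hc
  have hκ0 : 0 < κ := by rw [hκ]; positivity
  have hm0 : 0 ≤ m := le_trans (by positivity) hm1
  have hN : 0 < N := hss ▸ mul_pos hs hs
  have hlhs : κ * √c * N / (6 * L) ≤ G * F := by
    refine le_trans ?_ (mul_le_mul hG hF (by positivity) (le_trans (by positivity) hG))
    rw [show κ * √c * N / (6 * L) = κ * s / L / 2 * (√c * s / 3) by rw [← hss]; ring]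
    gcongr
  have hr1 : c * m ^ 2 * (8 * K) / (2 * π) ≤ κ * √c * N / (24 * L) := by
    have hπ := Real.pi_gt_three
    calc c * m ^ 2 * (8 * K) / (2 * π)
        ≤ c * (2 * (κ * s / L)) ^ 2 * (8 * (2 * L)) / (2 * 3) := by gcongr
      _ = κ * √c * N / L * (32 / 3 * (κ * √c)) := by
          rw [← hss]
          field_simp
          rw [Real.sq_sqrt hc.le]
          ring
      _ ≤ κ * √c * N / L * (1 / 24) := by
          refine mul_le_mul_of_nonneg_left ?_ (by positivity)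
          rw [hκ, show 1 / (384 * √c) * √c = 1 / 384 by field_simp]
          norm_num
      _ = _ := by ring
  have hr2 : t * S ≤ κ * √c * N / (40 * L) := by
    refine (mul_le_mul_of_nonneg_left hS (by rw [ht]; positivity)).trans ?_
    rw [ht, show 48 / (√c * s) * (3 * (δ ^ 2 * (N * s) / L)) = δ ^ 2 * (144 * N / (√c * L)) by
      field_simp; ring]
    refine (mul_le_mul_of_nonneg_right hδ2 (by positivity)).trans (le_of_eq ?_)
    field_simp
    rw [Real.sq_sqrt hc.le]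
    ring
  have hr3 : t⁻¹ * m ≤ κ * √c * N / (24 * L) := by
    refine (mul_le_mul_of_nonneg_left hm2 (by rw [ht]; positivity)).trans (le_of_eq ?_)
    rw [ht, inv_div, ← hss]
    ring
  have hpos : 0 < κ * √c * N / L := by positivity
  have : κ * √c * N / (6 * L) ≤
      κ * √c * N / (24 * L) + κ * √c * N / (40 * L) + κ * √c * N / (24 * L) := by linarith
  ring_nf at this hpos
  linarith

/-- **The theorem of Erdős and Fuchs.** -/
theorem frequently_repError_gt (a : ℕ → ℕ) (hc : 0 < c) :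
    ∃ δ : ℝ, 0 < δ ∧ ∃ᶠ N : ℕ in atTop,
      δ * (N : ℝ) ^ (1 / 4 : ℝ) / √(Real.log N) < |repError a c N| := by
  set κ : ℝ := 1 / (384 * √c) with hκ
  have hsc : 0 < √c := Real.sqrt_pos.2 hc
  have hκ0 : 0 < κ := by positivity
  set δ : ℝ := min (c / 16) (√(κ * c / 5760)) with hδdef
  have hδ : 0 < δ := lt_min (by positivity) (by positivity)
  have hδ2 : δ ^ 2 ≤ κ * c / 5760 := by
    refine (pow_le_pow_left₀ hδ.le (min_le_right _ _) 2).trans (le_of_eq ?_)
    rw [Real.sq_sqrt (by positivity)]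
  refine ⟨δ, hδ, fun hcon => ?_⟩
  simp only [not_lt] at hcon
  obtain ⟨n₀, hn₀⟩ := eventually_atTop.1 (hcon.and (eventually_ge_atTop 3))
  set B₀ : ℝ := ∑ n ∈ range n₀, |repError a c n| with hB₀
  have hB0 : 0 ≤ B₀ := Finset.sum_nonneg fun _ _ => abs_nonneg _
  have hcases : ∀ n, |repError a c n| ≤ B₀ ∨
      3 ≤ n ∧ |repError a c n| ≤ δ * (n : ℝ) ^ (1 / 4 : ℝ) / √(Real.log n) := fun n => by
    rcases lt_or_ge n n₀ with h | h
    · exact Or.inl (Finset.single_le_sum (f := fun n => |repError a c n|)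
        (fun _ _ => abs_nonneg _) (Finset.mem_range.2 h))
    · exact Or.inr ⟨(hn₀ n h).2, (hn₀ n h).1⟩
  have hlin : ∀ n, |repError a c n| ≤ B₀ + δ * ((n : ℝ) + 1) := fun n => by
    have h0 : 0 ≤ δ * ((n : ℝ) + 1) := by positivity
    rcases hcases n with h | ⟨hn, h⟩
    · linarith
    have hn3 : (3 : ℝ) ≤ n := by exact_mod_cast hn
    have hl1 : 1 ≤ √(Real.log n) := by
      rw [Real.one_le_sqrt, ← Real.log_exp 1]
      exact Real.log_le_log (Real.exp_pos 1) (by linarith [Real.exp_one_lt_d9])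
    refine h.trans ((div_le_self (by positivity) hl1).trans ?_)
    linarith [mul_le_mul_of_nonneg_left (rpow_quarter_le n) hδ.le]
  have hbd : ∀ n, |repError a c n| ≤ (B₀ + δ) * (n + 1) := fun n => by
    nlinarith [hlin n, Nat.cast_nonneg (α := ℝ) n]
  -- a large `N`
  have hgrow := (isLittleO_log_rpow_atTop (r := 1 / 2) (by norm_num)).bound
    (show (0 : ℝ) < min κ (1 / 8 / (κ + 1)) by positivity)
  obtain ⟨N, hN8, hNB, hneg, hlogN⟩ := ((eventually_ge_atTop 8).and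
    ((tendsto_natCast_atTop_atTop.eventually (eventually_ge_atTop (16 * B₀ / c))).and
    ((eventually_negligible hδ.ne' B₀).and
    (tendsto_natCast_atTop_atTop.eventually hgrow)))).exists
  have hNr : (8 : ℝ) ≤ N := by exact_mod_cast hN8
  have hN0 : (0 : ℝ) < N := by linarith
  set L := Real.log N with hL
  have hL1 : 1 ≤ L := by
    rw [hL, ← Real.log_exp 1]
    exact Real.log_le_log (Real.exp_pos 1) (by linarith [Real.exp_one_lt_d9])
  rw [Real.norm_of_nonneg (by linarith), Real.norm_of_nonneg (by positivity),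
    ← Real.sqrt_eq_rpow] at hlogN
  set s := √(N : ℝ) with hs
  have hs0 : 0 < s := Real.sqrt_pos.2 hN0
  have hss : s * s = N := Real.mul_self_sqrt hN0.le
  have hM1 : 1 ≤ κ * s / L := by
    rw [le_div_iff₀ (by linarith), one_mul]
    exact hlogN.trans (mul_le_mul_of_nonneg_right (min_le_left _ _) hs0.le)
  obtain ⟨m, hm⟩ : ∃ m : ℕ, m = ⌈κ * s / L⌉₊ := ⟨_, rfl⟩
  have hm1 : κ * s / L ≤ m := hm ▸ Nat.le_ceil _
  have hm2 : (m : ℝ) ≤ 2 * (κ * s / L) := by
    rw [hm]; linarith [Nat.ceil_lt_add_one (show 0 ≤ κ * s / L by positivity)]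
  have hmN : 4 * (m : ℝ) ≤ N := by
    have : L ≤ 1 / 8 / (κ + 1) * s := hlogN.trans
      (mul_le_mul_of_nonneg_right (min_le_right _ _) hs0.le)
    have hκs : κ * s / L ≤ κ * s := div_le_self (by positivity) hL1
    have h8 : 8 * κ ≤ s := by
      have : 1 ≤ 1 / 8 / (κ + 1) * s := hL1.trans this
      rw [div_div, div_mul_eq_mul_div, le_div_iff₀ (by positivity)] at this
      linarith
    nlinarith
  obtain ⟨ε, hε⟩ : ∃ ε : ℝ, ε = 1 / N := ⟨_, rfl⟩
  have hε0 : 0 < ε := by rw [hε]; positivity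
  have hεN : ε * N = 1 := by rw [hε]; field_simp
  have hε8 : ε ≤ 1 / 8 := by rw [hε]; gcongr
  obtain ⟨x, hx⟩ : ∃ x : ℝ, x = (1 - ε) ^ 2 := ⟨_, rfl⟩
  have hx0 : 0 ≤ x := hx ▸ sq_nonneg _
  have hx1 : x < 1 := by rw [hx]; nlinarith
  have hxlo : 1 - 2 * ε ≤ x := by rw [hx]; nlinarith [sq_nonneg ε]
  have hgap : ε ≤ 1 - x := by rw [hx]; nlinarith
  have hgeo : (1 - x)⁻¹ ≤ N := by
    rw [inv_le_comm₀ (by linarith) hN0]; rwa [hε, one_div] at hgap
  -- the two bounds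
  have hf : c * N / 8 ≤ (∑' n, (a n : ℝ) * x ^ n) ^ 2 :=
    le_generating_sq hc hB0 hδ (min_le_left _ _) hlin hbd hNr hεN
      (by rw [div_le_iff₀ hc] at hNB; linarith) hx0 hx1 hxlo hgeo
  have hflo : √c * s / 3 ≤ ∑' n, (a n : ℝ) * x ^ n := by
    have hnn : 0 ≤ ∑' n, (a n : ℝ) * x ^ n := tsum_nonneg fun n => by positivity
    refine (sq_le_sq₀ (by positivity) hnn).1 (le_trans ?_ hf)
    rw [div_pow, mul_pow, Real.sq_sqrt hc.le, Real.sq_sqrt hN0.le]
    nlinarith [mul_pos hc hN0]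
  have hm4 : ε * (4 * (m : ℝ)) ≤ 1 := hεN ▸ mul_le_mul_of_nonneg_left hmN hε0.le
  have hglo : (m : ℝ) / 2 ≤ ∑ j ∈ range m, x ^ j := by
    have := Finset.card_nsmul_le_sum _ _ _ fun j hj =>
      half_le_pow (m := m) hx0 hx1.le hxlo hm4 (Finset.mem_range.1 hj).le
    rw [Finset.card_range, nsmul_eq_mul] at this
    linarith
  have hlogK : Real.log ((ε + π) / ε) ≤ 2 * L := by
    rw [hε]; exact log_kernel_le hNr
  have hK0 : 0 ≤ Real.log ((ε + π) / ε) :=
    Real.log_nonneg (by rw [le_div_iff₀ hε0]; linarith [Real.pi_pos])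
  have hmean := mean_bound hc.le hbd m hε0 (by linarith) (t := 48 / (√c * s)) (by positivity)
  rw [← hx] at hmean
  exact parameters_absurd hc hκ hδ2 hs0 hss (by linarith) hm1 hm2 hglo hflo
    (tsum_sq_error_le hδ (by omega) hneg hcases hx0 hx1 hgeo) hK0 hlogK rfl hmean

end FA.ErdosFuchs

end
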