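import Mathlib.MeasureTheory.Integral.DominatedConvergence
import Mathlib.Analysis.SpecialFunctions.Integrals.Basic

/-!
# Parseval on a circle

For absolutely summable `b` the mean of `|∑ b n e^(i n θ)|²` over a period is `∑ |b n|²`.
-/

set_option autoImplicit false

noncomputable section

open MeasureTheory Complex Filter Topology
open scoped Real ComplexConjugate

namespace FA.ErdosFuchs

/-- `e^(i n θ)`. -/
def wave (n : ℤ) (θ : ℝ) : ℂ := exp (n * θ * I)

theorem continuous_wave (n : ℤ) : Continuous (wave n) := by unfold wave; fun_prop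

theorem norm_wave (n : ℤ) (θ : ℝ) : ‖wave n θ‖ = 1 := by
  simp [wave, Complex.norm_exp]

theorem integral_wave (n : ℤ) :
    ∫ θ in (-π)..π, wave n θ = if n = 0 then 2 * (π : ℂ) else 0 := by
  split_ifs with h
  · subst h
    simp [wave]
    ring
  · have hc : (n : ℂ) * I ≠ 0 := mul_ne_zero (Int.cast_ne_zero.2 h) I_ne_zero
    have e : (fun θ : ℝ => wave n θ) = fun θ : ℝ => exp ((n * I : ℂ) * θ) :=
      funext fun θ => by rw [wave]; ring_nf
    rw [e, integral_exp_mul_complex hc, div_eq_zero_iff]
    left
    rw [sub_eq_zero, Complex.exp_eq_exp_iff_exists_int]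
    exact ⟨n, by push_cast; ring⟩

/-- The series. -/
def waveSeries (b : ℕ → ℂ) (θ : ℝ) : ℂ := ∑' n : ℕ, b n * wave n θ

variable {b : ℕ → ℂ}

theorem hasSum_waveSeries (hb : Summable fun n => ‖b n‖) (θ : ℝ) :
    HasSum (fun n : ℕ => b n * wave n θ) (waveSeries b θ) :=
  (Summable.of_norm (hb.congr fun n => by rw [norm_mul, norm_wave, mul_one])).hasSum

theorem continuous_waveSeries (hb : Summable fun n => ‖b n‖) : Continuous (waveSeries b) :=
  continuous_tsum (fun n => (continuous_wave n).const_mul _) hb fun n θ => by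
    rw [norm_mul, norm_wave, mul_one]

theorem integral_wave_mul_waveSeries (hb : Summable fun n => ‖b n‖) (m : ℕ) :
    ∫ θ in (-π)..π, wave (-(m : ℤ)) θ * waveSeries b θ = 2 * (π : ℂ) * b m := by
  have h := intervalIntegral.hasSum_integral_of_dominated_convergence (μ := volume)
    (a := -π) (b := π) (F := fun (n : ℕ) θ => wave (-(m : ℤ)) θ * (b n * wave n θ))
    (f := fun θ => wave (-(m : ℤ)) θ * waveSeries b θ) (fun n _ => ‖b n‖)
    (fun n => ((continuous_wave _).mul ((continuous_wave n).const_mul _)).aestronglyMeasurable)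
    (fun n => Eventually.of_forall fun θ _ => by
      rw [norm_mul, norm_mul, norm_wave, norm_wave, one_mul, mul_one])
    (Eventually.of_forall fun _ _ => hb) intervalIntegrable_const
    (Eventually.of_forall fun θ _ => (hasSum_waveSeries hb θ).mul_left _)
  have e : ∀ n : ℕ, ∫ θ in (-π)..π, wave (-(m : ℤ)) θ * (b n * wave n θ) =
      if n = m then 2 * (π : ℂ) * b m else 0 := fun n => by
    have e1 : (fun θ => wave (-(m : ℤ)) θ * (b n * wave n θ)) =
        fun θ => b n * wave ((n : ℤ) - m) θ := funext fun θ => by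
      simp only [wave]
      rw [show (((n : ℤ) - (m : ℤ) : ℤ) : ℂ) * θ * I =
        ((-(m : ℤ) : ℤ) : ℂ) * θ * I + ((n : ℤ) : ℂ) * θ * I by push_cast; ring, Complex.exp_add]
      ring
    rw [e1, intervalIntegral.integral_const_mul, integral_wave]
    rcases eq_or_ne n m with rfl | hne
    · rw [if_pos (sub_self _), if_pos rfl]; ring
    · rw [if_neg (by omega), if_neg hne, mul_zero]
  simp only [e] at h
  exact h.unique (hasSum_ite_eq m _)

/-- **Parseval's identity.** -/
theorem hasSum_normSq_waveSeries (hb : Summable fun n => ‖b n‖) :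
    HasSum (fun n => ‖b n‖ ^ 2) ((∫ θ in (-π)..π, ‖waveSeries b θ‖ ^ 2) / (2 * π)) := by
  have hB : ∀ θ, ‖waveSeries b θ‖ ≤ ∑' n, ‖b n‖ := fun θ =>
    tsum_of_norm_bounded hb.hasSum fun n => by rw [norm_mul, norm_wave, mul_one]
  have h := intervalIntegral.hasSum_integral_of_dominated_convergence (μ := volume)
    (a := -π) (b := π)
    (F := fun (n : ℕ) θ => conj (b n) * (wave (-(n : ℤ)) θ * waveSeries b θ))
    (f := fun θ => conj (waveSeries b θ) * waveSeries b θ)
    (fun n _ => ‖b n‖ * ∑' k, ‖b k‖)
    (fun n =>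
      (((continuous_wave _).mul (continuous_waveSeries hb)).const_mul _).aestronglyMeasurable)
    (fun n => Eventually.of_forall fun θ _ => by
      rw [norm_mul, norm_mul, norm_wave, one_mul, RCLike.norm_conj]
      exact mul_le_mul_of_nonneg_left (hB θ) (norm_nonneg _))
    (Eventually.of_forall fun _ _ => hb.mul_right _) intervalIntegrable_const
    (Eventually.of_forall fun θ _ => by
      refine (((hasSum_waveSeries hb θ).map (starRingEnd ℂ) Complex.continuous_conj).mul_right
        (waveSeries b θ)).congr_fun fun n => ?_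
      simp only [Function.comp_apply, map_mul, wave]
      rw [← Complex.exp_conj, map_mul, map_mul, Complex.conj_I, Complex.conj_ofReal, map_intCast]
      push_cast
      ring_nf)
  simp only [intervalIntegral.integral_const_mul, integral_wave_mul_waveSeries hb] at h
  have hr : ∫ θ in (-π)..π, conj (waveSeries b θ) * waveSeries b θ =
      ((∫ θ in (-π)..π, ‖waveSeries b θ‖ ^ 2 : ℝ) : ℂ) := by
    rw [← intervalIntegral.integral_ofReal]
    refine intervalIntegral.integral_congr fun θ _ => ?_
    rw [mul_comm, Complex.mul_conj']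
    push_cast
    rfl
  rw [hr] at h
  have hr2 := (Complex.reCLM.hasSum h).div_const (2 * π)
  simp only [Complex.reCLM_apply, Complex.ofReal_re] at hr2
  refine hr2.congr_fun fun n => ?_
  rw [show conj (b n) * (2 * (π : ℂ) * b n) = (2 * π) * (b n * conj (b n)) by ring,
    Complex.mul_conj', show (2 * (π : ℂ) * ((‖b n‖ : ℂ) ^ 2)) = ((2 * π * ‖b n‖ ^ 2 : ℝ) : ℂ) by
      push_cast; ring, Complex.ofReal_re]
  field_simp

end FA.ErdosFuchs

end
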